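/-
S35-GEO, leaf (L6a) for a general coordinate — helper42 (tasks 662).

`S35.H97.PointFrob` gives the one-component points (with normal branch) of the two charts of the
coordinate `x₀ = j`.  For the standard base functions of Program B' at `q ∈ {2, 3}` the coordinate
is a Hauptmodul `x₀` with `j₀ · D(x₀) = N(x₀)`.  Here are the same theorems for such an `x₀`:

* `oneCompFrob_chart_of_not_both_rel`    : finite chart (`hjq` from `H42.beta_mem_chart_of_rel`);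
* `oneCompFrob_chartInv_of_not_both_rel` : chart at infinity, cusps included (local coordinates
  from `H42.exists_inLoc_chartInv_rel`).
-/
import Fermat.Agent.S35.H97.PointFrob
import Fermat.Agent.S34.H42.InLocSupply

set_option autoImplicit false
set_option linter.style.haveILetI false
set_option linter.unusedSectionVars false
set_option linter.unusedVariables false

noncomputable section

namespace Fermat.Agent.S35.H42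

open Fermat.Agent.S28 Fermat.Agent.S18 Fermat.Agent.S18.H19 Fermat.Agent.S34.H42
  Fermat.Agent.S35.H27 Fermat.Agent.S35.H97

section ChartsRel

variable {A₀ : Type*} [CommRing A₀] [IsDomain A₀] [IsDiscreteValuationRing A₀] [CharZero A₀]
  {K L : Type*} [Field K] [Field L] [Algebra A₀ K] [Algebra A₀ L] [Algebra K L]
  [IsScalarTower A₀ K L] [FaithfulSMul A₀ K]

/-- **One-component points of the finite chart, general coordinate** (all `q`).  Binder block of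
`H42.pointUFD_chart_of_not_both_rel`. -/
theorem oneCompFrob_chart_of_not_both_rel (ϖ : A₀) (hϖ : Irreducible ϖ)
    (O₀ : ValuationSubring K) (x₀ j₀ : K) (hS : DSetup A₀ O₀ x₀) (hj₀ : j₀ ≠ 0)
    (V₁ V₂ : ValuationSubring L)
    (hc₁ : ∀ v : K, algebraMap K L v ∈ V₁ ↔ v ∈ O₀)
    (hres₁ : ∀ g ∈ V₁, ∃ v ∈ O₀, g - algebraMap K L v ∈ V₁.nonunits)
    (β : K →+* L) (hβA : ∀ a : A₀, β (algebraMap A₀ K a) = algebraMap A₀ L a)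
    (hβV : ∀ v : K, β v ∈ V₂ ↔ v ∈ O₀)
    (hresβ : ∀ g ∈ V₂, ∃ v ∈ O₀, g - β v ∈ V₂.nonunits)
    [IsIntegrallyClosed ↥(chart A₀ (algebraMap K L x₀))]
    (hfrac : ∀ y : L, ∃ a ∈ chart A₀ (algebraMap K L x₀), ∃ b ∈ chart A₀ (algebraMap K L x₀),
      b ≠ 0 ∧ y = a / b)
    (hCV₁ : ∀ c ∈ chart A₀ (algebraMap K L x₀), c ∈ V₁)
    (hCV₂ : ∀ c ∈ chart A₀ (algebraMap K L x₀), c ∈ V₂)
    (hu₁ : ∀ y : L, y ∈ V₁.nonunits ↔ ∃ d ∈ V₁, y = ϖ • d)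
    (hu₂ : ∀ y : L, y ∈ V₂.nonunits ↔ ∃ d ∈ V₂, y = ϖ • d)
    (hsat : ∀ y : L, y ∈ V₁ → y ∈ V₂ → ϖ • y ∈ chart A₀ (algebraMap K L x₀) →
      y ∈ chart A₀ (algebraMap K L x₀))
    (N D : Polynomial A₀) (hrel : j₀ * Polynomial.aeval x₀ D = Polynomial.aeval x₀ N)
    (hN : N.Monic) (hD : D.Monic) (hdeg : D.natDegree < N.natDegree) (hcop : IsCoprime N D)
    {q : ℕ} (hq : q ≠ 0) {Φ : Polynomial (Polynomial ℤ)} (hΦ : IsModPoly q Φ)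
    (h12 : (evalY (algebraMap K L j₀) Φ).eval (β j₀) = 0)
    (h21 : (evalY (β j₀) Φ).eval (algebraMap K L j₀) = 0)
    (hkx₁ : β x₀ - algebraMap K L x₀ ^ q ∈ V₁.nonunits)
    (hkx₂ : algebraMap K L x₀ - β x₀ ^ q ∈ V₂.nonunits)
    (x : Ideal ↥(chart A₀ (algebraMap K L x₀))) (hx : x.IsMaximal)
    (hϖx : algebraMap A₀ ↥(chart A₀ (algebraMap K L x₀)) ϖ ∈ x)
    (hnb : ¬ ((∀ c : ↥(chart A₀ (algebraMap K L x₀)), (c : L) ∈ V₁.nonunits → c ∈ x) ∧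
      (∀ c : ↥(chart A₀ (algebraMap K L x₀)), (c : L) ∈ V₂.nonunits → c ∈ x)))
    (m : ℕ) (hm : 0 < m) :
    OneComp (chart A₀ (algebraMap K L x₀)) V₁ V₂ m x ∨
      OneComp (chart A₀ (algebraMap K L x₀)) V₂ V₁ m x :=
  oneCompFrob_chart_of_not_both ϖ hϖ O₀ x₀ hS V₁ V₂ hc₁ hres₁ β hβA hβV hresβ hfrac hCV₁ hCV₂
    hu₁ hu₂ hsat
    (beta_mem_chart_of_rel ϖ hϖ x₀ j₀ (dsetup_ne_zero O₀ x₀ hS) hj₀ V₁ V₂ β hβA hfrac hCV₁ hCV₂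
      hu₁ hu₂ hsat N D hrel hN hD hdeg hcop hq hΦ h12 h21 hkx₁ hkx₂)
    x hx hϖx hnb m hm

/-- **One-component points of the chart at infinity, general coordinate** (all `q`, cusps
included).  Binder block of `H42.pointUFD_chartInv_of_not_both_rel'`; `hjq` is the integrality of
`β x₀` over `A₀[α x₀]` (`H42.beta_mem_chart_of_rel` on the finite chart). -/
theorem oneCompFrob_chartInv_of_not_both_rel (ϖ : A₀) (hϖ : Irreducible ϖ)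
    (O₀ : ValuationSubring K) (x₀ j₀ : K) (hS : DSetup A₀ O₀ x₀) (hS' : DSetup A₀ O₀ x₀⁻¹)
    (hj₀ : j₀ ≠ 0)
    (V₁ V₂ : ValuationSubring L)
    (hc₁ : ∀ v : K, algebraMap K L v ∈ V₁ ↔ v ∈ O₀)
    (hres₁ : ∀ g ∈ V₁, ∃ v ∈ O₀, g - algebraMap K L v ∈ V₁.nonunits)
    (β : K →+* L) (hβA : ∀ a : A₀, β (algebraMap A₀ K a) = algebraMap A₀ L a)
    (hβV : ∀ v : K, β v ∈ V₂ ↔ v ∈ O₀)
    (hresβ : ∀ g ∈ V₂, ∃ v ∈ O₀, g - β v ∈ V₂.nonunits)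
    [IsIntegrallyClosed ↥(chart A₀ (algebraMap K L x₀)⁻¹)]
    (hfrac : ∀ y : L, ∃ a ∈ chart A₀ (algebraMap K L x₀)⁻¹,
      ∃ b ∈ chart A₀ (algebraMap K L x₀)⁻¹, b ≠ 0 ∧ y = a / b)
    (hCV₁ : ∀ c ∈ chart A₀ (algebraMap K L x₀)⁻¹, c ∈ V₁)
    (hCV₂ : ∀ c ∈ chart A₀ (algebraMap K L x₀)⁻¹, c ∈ V₂)
    (hu₁ : ∀ y : L, y ∈ V₁.nonunits ↔ ∃ d ∈ V₁, y = ϖ • d)
    (hu₂ : ∀ y : L, y ∈ V₂.nonunits ↔ ∃ d ∈ V₂, y = ϖ • d)
    (hsat : ∀ y : L, y ∈ V₁ → y ∈ V₂ → ϖ • y ∈ chart A₀ (algebraMap K L x₀)⁻¹ →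
      y ∈ chart A₀ (algebraMap K L x₀)⁻¹)
    (hjq : β x₀ ∈ chart A₀ (algebraMap K L x₀))
    (N D : Polynomial A₀) (hrel : j₀ * Polynomial.aeval x₀ D = Polynomial.aeval x₀ N)
    (hN : N.Monic) (hD : D.Monic) (hdeg : D.natDegree < N.natDegree)
    {q : ℕ} (hq : q ≠ 0) {Φ : Polynomial (Polynomial ℤ)} (hΦ : IsModPoly q Φ)
    (h12 : (evalY (algebraMap K L j₀) Φ).eval (β j₀) = 0)
    (h21 : (evalY (β j₀) Φ).eval (algebraMap K L j₀) = 0)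
    (x : Ideal ↥(chart A₀ (algebraMap K L x₀)⁻¹)) (hx : x.IsMaximal)
    (hϖx : algebraMap A₀ ↥(chart A₀ (algebraMap K L x₀)⁻¹) ϖ ∈ x)
    (hnb : ¬ ((∀ c : ↥(chart A₀ (algebraMap K L x₀)⁻¹), (c : L) ∈ V₁.nonunits → c ∈ x) ∧
      (∀ c : ↥(chart A₀ (algebraMap K L x₀)⁻¹), (c : L) ∈ V₂.nonunits → c ∈ x)))
    (m : ℕ) (hm : 0 < m) :
    OneComp (chart A₀ (algebraMap K L x₀)⁻¹) V₁ V₂ m x ∨
      OneComp (chart A₀ (algebraMap K L x₀)⁻¹) V₂ V₁ m x := by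
  haveI := hx.isPrime
  obtain ⟨t₁, t₂, hS₁, hS₂, h1, h2⟩ := exists_inLoc_chartInv_rel O₀ x₀ j₀ hS hS' hj₀ β hβA hfrac
    hjq N D hrel hN hD hdeg hq hΦ h12 h21 x
  exact oneCompFrob_of_not_both ϖ hϖ O₀ t₁ t₂ hS₁ hS₂ V₁ V₂ hc₁ hres₁ β hβA hβV hresβ
    (chart A₀ (algebraMap K L x₀)⁻¹) hfrac hCV₁ hCV₂ hu₁ hu₂ hsat x hx hϖx h1 h2 hnb m hm

end ChartsRel

end Fermat.Agent.S35.H42
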